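import Mathlib

/-!
# The `u, u⁻¹` lemma

Let `O` be a subring of a field `K` that is integrally closed in `K`, `Q` an ideal of `O`,
`u ∈ K` a root of a polynomial over `O` with a coefficient outside `Q`. Then
`u` or `u⁻¹` is a fraction `t / s` with `t, s ∈ O`, `s ∉ Q`.
-/

set_option autoImplicit false

namespace Fermat.Agent.S54

open Polynomial

theorem frac_or_inv_frac_aux {K : Type*} [Field K] (O : Subring K)
    (hO : ∀ x : K, IsIntegral O x → x ∈ O) (Q : Ideal O) :
    ∀ (n : ℕ) (p : O[X]) (u : K), p.natDegree = n → aeval u p = 0 →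
      (∃ i, p.coeff i ∉ Q) →
      (∃ s : O, s ∉ Q ∧ (s : K) * u ∈ O) ∨ (∃ t : O, t ∉ Q ∧ (t : K) * u⁻¹ ∈ O) := by
  intro n
  induction n using Nat.strong_induction_on with
  | _ n ih =>
    intro p u hn hp hc
    have hau : IsIntegral O (p.leadingCoeff • u) := isIntegral_leadingCoeff_smul p u hp
    have hau' : (p.leadingCoeff : K) * u ∈ O := by
      have := hO _ hau
      rwa [Subring.smul_def, smul_eq_mul] at this
    by_cases ha : p.leadingCoeff ∈ Q
    · -- leading coefficient in `Q`
      set y : O := ⟨(p.leadingCoeff : K) * u, hau'⟩ with hy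
      by_cases hyQ : y ∈ Q
      · -- reduce the degree
        obtain ⟨i, hi⟩ := hc
        have hin : i ≠ p.natDegree := by
          rintro rfl
          exact hi ha
        have hilt : i < p.natDegree := by
          rcases lt_or_gt_of_ne hin with h | h
          · exact h
          · exact absurd (by rw [coeff_eq_zero_of_natDegree_lt h]; exact Q.zero_mem) hi
        have hnpos : 0 < n := by omega
        set p' : O[X] := p.eraseLead + C y * X ^ (n - 1) with hp'
        have hdeg : p'.natDegree < n := by
          have h1 : p.eraseLead.natDegree ≤ n - 1 := hn ▸ eraseLead_natDegree_le p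
          have h2 : (C y * X ^ (n - 1)).natDegree ≤ n - 1 := natDegree_C_mul_X_pow_le y (n - 1)
          have h3 : p'.natDegree ≤ n - 1 := (natDegree_add_le _ _).trans (max_le h1 h2)
          omega
        have heval : aeval u p' = 0 := by
          have h0 : aeval u (p.eraseLead + monomial p.natDegree p.leadingCoeff) = 0 := by
            rw [eraseLead_add_monomial_natDegree_leadingCoeff]; exact hp
          rw [map_add, aeval_monomial, hn] at h0
          rw [hp', map_add, map_mul, aeval_C, map_pow, aeval_X]
          have hpow : u ^ n = u * u ^ (n - 1) := by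
            rw [← pow_succ']; congr 1; omega
          rw [hpow] at h0
          rw [← h0]
          congr 1
          change ((p.leadingCoeff : K) * u) * u ^ (n - 1) = (p.leadingCoeff : K) * (u * u ^ (n - 1))
          ring
        have hc' : ∃ j, p'.coeff j ∉ Q := by
          refine ⟨i, fun hmem => hi ?_⟩
          rw [hp', coeff_add, eraseLead_coeff, if_neg hin, coeff_C_mul, coeff_X_pow] at hmem
          by_cases hi1 : i = n - 1
          · rw [if_pos hi1, mul_one] at hmem
            exact (Ideal.add_mem_iff_left Q hyQ).mp hmem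
          · rw [if_neg hi1, mul_zero, add_zero] at hmem
            exact hmem
        exact ih p'.natDegree hdeg p' u rfl heval hc'
      · -- `y ∉ Q`: then `u⁻¹ = a / y`
        right
        refine ⟨y, hyQ, ?_⟩
        have hu : u ≠ 0 := by
          rintro rfl
          apply hyQ
          have : y = 0 := Subtype.ext (by simp [hy])
          rw [this]; exact Q.zero_mem
        have : (y : K) * u⁻¹ = (p.leadingCoeff : K) := by
          change (p.leadingCoeff : K) * u * u⁻¹ = _
          rw [mul_assoc, mul_inv_cancel₀ hu, mul_one]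
        rw [this]
        exact p.leadingCoeff.2
    · left
      exact ⟨p.leadingCoeff, ha, hau'⟩

theorem frac_or_inv_frac {K : Type*} [Field K] (O : Subring K)
    (hO : ∀ x : K, IsIntegral O x → x ∈ O) (Q : Ideal O) (p : O[X]) (u : K)
    (hp : aeval u p = 0) (hc : ∃ i, p.coeff i ∉ Q) :
    (∃ s : O, s ∉ Q ∧ (s : K) * u ∈ O) ∨ (∃ t : O, t ∉ Q ∧ (t : K) * u⁻¹ ∈ O) :=
  frac_or_inv_frac_aux O hO Q _ p u rfl hp hc

end Fermat.Agent.S54
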