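import Mathlib
import Fermat.Agent.S54.Kaplansky

/-!
# The valuation subring attached to a prime of an integrally closed subring

For a subring `O` of a field `K` and a prime ideal `Q` of `O`, `fracSubring O Q` is the subring
of fractions `t / s` with `t, s ∈ O`, `s ∉ Q`.
-/

set_option autoImplicit false

namespace Fermat.Agent.S54

open Polynomial

/-- Fractions with numerator in `O` and denominator in `O \ Q`. -/
def fracSubring {K : Type*} [Field K] (O : Subring K) (Q : Ideal O) [hQ : Q.IsPrime] :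
    Subring K where
  carrier := {x | ∃ s : O, s ∉ Q ∧ (s : K) * x ∈ O}
  mul_mem' := by
    rintro x y ⟨s, hs, hx⟩ ⟨t, ht, hy⟩
    refine ⟨s * t, fun h => (hQ.mem_or_mem h).elim hs ht, ?_⟩
    have : ((s * t : O) : K) * (x * y) = ((s : K) * x) * ((t : K) * y) := by
      push_cast; ring
    rw [this]
    exact O.mul_mem hx hy
  one_mem' := ⟨1, fun h => hQ.ne_top ((Ideal.eq_top_iff_one _).mpr h), by
    simp⟩
  add_mem' := by
    rintro x y ⟨s, hs, hx⟩ ⟨t, ht, hy⟩
    refine ⟨s * t, fun h => (hQ.mem_or_mem h).elim hs ht, ?_⟩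
    have : ((s * t : O) : K) * (x + y) = (t : K) * ((s : K) * x) + (s : K) * ((t : K) * y) := by
      push_cast; ring
    rw [this]
    exact O.add_mem (O.mul_mem t.2 hx) (O.mul_mem s.2 hy)
  zero_mem' := ⟨1, fun h => hQ.ne_top ((Ideal.eq_top_iff_one _).mpr h), by
    simp⟩
  neg_mem' := by
    rintro x ⟨s, hs, hx⟩
    refine ⟨s, hs, ?_⟩
    rw [mul_neg]
    exact O.neg_mem hx

theorem mem_fracSubring {K : Type*} [Field K] (O : Subring K) (Q : Ideal O) [Q.IsPrime] (x : K) :
    x ∈ fracSubring O Q ↔ ∃ s : O, s ∉ Q ∧ (s : K) * x ∈ O := Iff.rfl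

theorem le_fracSubring {K : Type*} [Field K] (O : Subring K) (Q : Ideal O) [hQ : Q.IsPrime] :
    O ≤ fracSubring O Q := fun x hx =>
  ⟨1, fun h => hQ.ne_top ((Ideal.eq_top_iff_one _).mpr h), by simpa using hx⟩

/-- If every element of `K` is a root of a polynomial over `O` with a coefficient outside `Q`,
and `O` is integrally closed in `K`, then `fracSubring O Q` is a valuation subring. -/
def fracValuationSubring {K : Type*} [Field K] (O : Subring K) (Q : Ideal O) [Q.IsPrime]
    (hO : ∀ x : K, IsIntegral O x → x ∈ O)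
    (hK : ∀ u : K, ∃ p : O[X], aeval u p = 0 ∧ ∃ i, p.coeff i ∉ Q) : ValuationSubring K :=
  { fracSubring O Q with
    mem_or_inv_mem' := fun u => by
      obtain ⟨p, hp, hc⟩ := hK u
      exact frac_or_inv_frac O hO Q p u hp hc }

theorem mem_fracValuationSubring {K : Type*} [Field K] (O : Subring K) (Q : Ideal O) [Q.IsPrime]
    (hO : ∀ x : K, IsIntegral O x → x ∈ O)
    (hK : ∀ u : K, ∃ p : O[X], aeval u p = 0 ∧ ∃ i, p.coeff i ∉ Q) (x : K) :
    x ∈ fracValuationSubring O Q hO hK ↔ ∃ s : O, s ∉ Q ∧ (s : K) * x ∈ O := Iff.rfl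

/-- Elements of `Q` are nonunits of the valuation subring. -/
theorem mem_nonunits_fracValuationSubring {K : Type*} [Field K] (O : Subring K) (Q : Ideal O)
    [Q.IsPrime] (hO : ∀ x : K, IsIntegral O x → x ∈ O)
    (hK : ∀ u : K, ∃ p : O[X], aeval u p = 0 ∧ ∃ i, p.coeff i ∉ Q) (q : O) (hq : q ∈ Q) :
    (q : K) ∈ (fracValuationSubring O Q hO hK).nonunits := by
  have hmem : (q : K) ∈ fracValuationSubring O Q hO hK := le_fracSubring O Q q.2
  rw [ValuationSubring.mem_nonunits_iff_exists_mem_maximalIdeal]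
  refine ⟨hmem, ?_⟩
  rw [IsLocalRing.mem_maximalIdeal, mem_nonunits_iff]
  intro hu
  obtain ⟨⟨v, hv⟩, hv1⟩ := hu.exists_right_inv
  have h1 : (q : K) * v = 1 := congrArg Subtype.val hv1
  obtain ⟨s, hs, hsv⟩ := hv
  apply hs
  have : s = q * ⟨(s : K) * v, hsv⟩ := by
    apply Subtype.ext
    push_cast
    rw [mul_left_comm, h1, mul_one]
  rw [this]
  exact Q.mul_mem_right _ hq

end Fermat.Agent.S54
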