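import Mathlib
import Fermat.Prelude.Def_EllipticCurve_FrobeniusTrace
import Fermat.Agent.S54.FracSubring

/-!
# The absolute Galois group of `ℚ` acting on the ring of all algebraic integers
-/

set_option autoImplicit false

namespace Fermat.Agent.S54

open Polynomial
open scoped Pointwise

/-- The two `ℚ`-algebra structures on `AlgebraicClosure ℚ` agree (the prelude uses
`DivisionRing.toRatAlgebra`). -/
theorem ratAlgebra_eq : (DivisionRing.toRatAlgebra : Algebra ℚ (AlgebraicClosure ℚ)) =
    AlgebraicClosure.instAlgebra ℚ := Subsingleton.elim _ _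

instance isAlgClosureRat : IsAlgClosure ℚ (AlgebraicClosure ℚ) := by
  rw [ratAlgebra_eq]; infer_instance

/-- The ring of all algebraic integers, as a subring of `AlgebraicClosure ℚ`. -/
noncomputable def OQ : Subring (AlgebraicClosure ℚ) := (integralClosure ℤ (AlgebraicClosure ℚ)).toSubring

theorem mem_OQ {x : AlgebraicClosure ℚ} : x ∈ OQ ↔ IsIntegral ℤ x := Iff.rfl

instance isInvariantSubring_OQ :
    IsInvariantSubring (AlgebraicClosure ℚ ≃ₐ[ℚ] AlgebraicClosure ℚ) OQ where
  smul_mem σ x hx := by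
    rw [mem_OQ] at hx ⊢
    exact hx.map (σ : AlgebraicClosure ℚ →ₐ[ℚ] AlgebraicClosure ℚ).toRingHom.toIntAlgHom

theorem coe_smul_OQ (σ : AlgebraicClosure ℚ ≃ₐ[ℚ] AlgebraicClosure ℚ) (x : OQ) :
    ((σ • x : OQ) : AlgebraicClosure ℚ) = σ (x : AlgebraicClosure ℚ) := rfl

instance isIntegral_OQ : Algebra.IsIntegral ℤ OQ where
  isIntegral x := by
    have hx : IsIntegral ℤ (x : AlgebraicClosure ℚ) := x.2
    exact (isIntegral_algebraMap_iff (A := OQ) (B := AlgebraicClosure ℚ)
      Subtype.val_injective).mp hx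

theorem OQ_integrallyClosed (x : AlgebraicClosure ℚ) (hx : IsIntegral OQ x) : x ∈ OQ :=
  mem_OQ.mpr (isIntegral_trans x hx)

/-- The discrete topology on the ring of algebraic integers. -/
abbrev topOQ : TopologicalSpace OQ := ⊥

attribute [local instance] topOQ

instance discreteTopology_OQ : DiscreteTopology OQ := ⟨rfl⟩

instance continuousSMul_OQ :
    ContinuousSMul (AlgebraicClosure ℚ ≃ₐ[ℚ] AlgebraicClosure ℚ) OQ := by
  refine ⟨continuous_prod_of_discrete_right.mpr fun b => ?_⟩
  rw [continuous_discrete_rng]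
  intro b'
  rw [isOpen_iff_mem_nhds]
  intro g hg
  have hb : IsIntegral ℚ (b : AlgebraicClosure ℚ) := Algebra.IsIntegral.isIntegral _
  have : FiniteDimensional ℚ (IntermediateField.adjoin ℚ {(b : AlgebraicClosure ℚ)}) :=
    IntermediateField.adjoin.finiteDimensional hb
  have hopen : IsOpen
      ((IntermediateField.adjoin ℚ {(b : AlgebraicClosure ℚ)}).fixingSubgroup :
        Set (AlgebraicClosure ℚ ≃ₐ[ℚ] AlgebraicClosure ℚ)) :=
    IntermediateField.fixingSubgroup_isOpen _
  have hopen' := (Homeomorph.mulLeft g).isOpenMap _ hopen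
  refine Filter.mem_of_superset (hopen'.mem_nhds ⟨1, one_mem _, by simp⟩) ?_
  rintro _ ⟨h, hh, rfl⟩
  have hfix : h (b : AlgebraicClosure ℚ) = b := by
    have := (IntermediateField.mem_fixingSubgroup_iff _ _).mp hh (b : AlgebraicClosure ℚ)
      (IntermediateField.mem_adjoin_simple_self ℚ _)
    exact this
  have hg' : g • b = b' := hg
  show (g * h) • b = b'
  rw [mul_smul, ← hg']
  congr 1
  exact Subtype.ext hfix

instance isInvariant_OQ :
    Algebra.IsInvariant ℤ OQ (AlgebraicClosure ℚ ≃ₐ[ℚ] AlgebraicClosure ℚ) where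
  isInvariant b hb := by
    have hmem : (b : AlgebraicClosure ℚ) ∈ IntermediateField.fixedField
        (⊤ : Subgroup (AlgebraicClosure ℚ ≃ₐ[ℚ] AlgebraicClosure ℚ)) := by
      rintro ⟨g, -⟩
      exact congrArg Subtype.val (hb g)
    rw [InfiniteGalois.fixedField_bot, IntermediateField.mem_bot] at hmem
    obtain ⟨q, hq⟩ := hmem
    have hint : IsIntegral ℤ (b : AlgebraicClosure ℚ) := b.2
    rw [← hq, isIntegral_algebraMap_iff (algebraMap ℚ (AlgebraicClosure ℚ)).injective,
      IsIntegrallyClosed.isIntegral_iff] at hint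
    obtain ⟨a, ha⟩ := hint
    refine ⟨a, Subtype.ext ?_⟩
    rw [← hq, ← ha]
    simp

end Fermat.Agent.S54
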