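import Mathlib
import Fermat.Prelude.Def_EllipticCurve_FrobeniusTrace
import Fermat.Agent.S54.GaloisSetup

/-!
# Existence of Frobenius elements in the absolute Galois group of `ℚ`
-/

set_option autoImplicit false
set_option linter.style.haveILetI false

namespace Fermat.Agent.S54

open Polynomial
open scoped Pointwise

attribute [local instance] topOQ

section

variable (ℓ : ℕ) [hℓ : Fact ℓ.Prime]

/-- The ideal `(ℓ)` of `ℤ`. -/
abbrev primeIdeal : Ideal ℤ := Ideal.span {(ℓ : ℤ)}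

instance primeIdeal_isMaximal : (primeIdeal ℓ).IsMaximal :=
  PrincipalIdealRing.isMaximal_of_irreducible (Nat.prime_iff_prime_int.mp hℓ.out).irreducible

theorem exists_prime_over : ∃ Q : Ideal OQ, Q.IsMaximal ∧
    Q.comap (algebraMap ℤ OQ) = primeIdeal ℓ := by
  refine Ideal.exists_ideal_over_maximal_of_isIntegral (primeIdeal ℓ) ?_
  intro a ha
  rw [RingHom.mem_ker] at ha
  have h2 : ((algebraMap ℤ OQ a : OQ) : AlgebraicClosure ℚ) = 0 := by rw [ha]; rfl
  have h3 : ((a : ℤ) : AlgebraicClosure ℚ) = 0 := by simpa using h2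
  have h4 : a = 0 := by exact_mod_cast h3
  rw [h4]; exact zero_mem _

theorem exists_poly_coeff_notMem (Q : Ideal OQ)
    (hQ : Q.comap (algebraMap ℤ OQ) = primeIdeal ℓ) (u : AlgebraicClosure ℚ) :
    ∃ p : OQ[X], aeval u p = 0 ∧ ∃ i, p.coeff i ∉ Q := by
  have halg : IsAlgebraic ℤ u :=
    (IsFractionRing.isAlgebraic_iff ℤ ℚ (AlgebraicClosure ℚ)).mpr
      (Algebra.IsAlgebraic.isAlgebraic u)
  obtain ⟨p, hp0, hp⟩ := halg
  have hprim := isPrimitive_primPart p
  have hev : aeval u p.primPart = 0 := aeval_primPart_eq_zero hp0 hp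
  refine ⟨p.primPart.map (algebraMap ℤ OQ), by rw [aeval_map_algebraMap]; exact hev, ?_⟩
  by_contra hall
  push Not at hall
  have hdvd : C (ℓ : ℤ) ∣ p.primPart := (C_dvd_iff_dvd_coeff _ _).mpr fun i => by
    have h1 := hall i
    rw [coeff_map] at h1
    have h2 : p.primPart.coeff i ∈ Q.comap (algebraMap ℤ OQ) := h1
    rw [hQ, Ideal.mem_span_singleton] at h2
    exact h2
  exact (Nat.prime_iff_prime_int.mp hℓ.out).not_isUnit (hprim _ hdvd)

section Frob

variable (Q : Ideal OQ)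

omit hℓ in
theorem natCast_mem_of_liesOver [hQ : Q.LiesOver (primeIdeal ℓ)] : (ℓ : OQ) ∈ Q := by
  have h1 : (ℓ : ℤ) ∈ primeIdeal ℓ := Ideal.mem_span_singleton_self _
  rw [hQ.over] at h1
  have h2 : algebraMap ℤ OQ (ℓ : ℤ) ∈ Q := h1
  simpa using h2

theorem charP_quotient [hQmax : Q.IsMaximal] [hQ : Q.LiesOver (primeIdeal ℓ)] :
    CharP (OQ ⧸ Q) ℓ := by
  have : Nontrivial (OQ ⧸ Q) := Ideal.Quotient.nontrivial_iff.mpr hQmax.ne_top
  rw [CharP.charP_iff_prime_eq_zero hℓ.out]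
  have : ((ℓ : OQ) : OQ ⧸ Q) = 0 := Ideal.Quotient.eq_zero_iff_mem.mpr (natCast_mem_of_liesOver ℓ Q)
  simpa using this

theorem expChar_quotient [hQmax : Q.IsMaximal] [hQ : Q.LiesOver (primeIdeal ℓ)] :
    ExpChar (OQ ⧸ Q) ℓ :=
  haveI := charP_quotient ℓ Q
  ExpChar.prime hℓ.out

theorem frobenius_bijective_quotient [hQmax : Q.IsMaximal] [hQ : Q.LiesOver (primeIdeal ℓ)] :
    haveI := expChar_quotient ℓ Q
    Function.Bijective (frobenius (OQ ⧸ Q) ℓ) := by
  haveI := expChar_quotient ℓ Q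
  letI : Field (ℤ ⧸ primeIdeal ℓ) := Ideal.Quotient.field _
  letI : Field (OQ ⧸ Q) := Ideal.Quotient.field _
  haveI : Algebra.IsIntegral (ℤ ⧸ primeIdeal ℓ) (OQ ⧸ Q) :=
    Ideal.Quotient.algebra_isIntegral_of_liesOver Q (primeIdeal ℓ)
  haveI : PerfectField (OQ ⧸ Q) := Algebra.IsAlgebraic.perfectField (ℤ ⧸ primeIdeal ℓ)
  haveI : PerfectRing (OQ ⧸ Q) ℓ := PerfectField.toPerfectRing ℓ
  exact bijective_frobenius (OQ ⧸ Q) ℓ

/-- The Frobenius automorphism of the residue field at `Q`. -/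
noncomputable def frobAlgEquiv [hQmax : Q.IsMaximal] [hQ : Q.LiesOver (primeIdeal ℓ)] :
    (OQ ⧸ Q) ≃ₐ[ℤ ⧸ primeIdeal ℓ] (OQ ⧸ Q) :=
  haveI := expChar_quotient ℓ Q
  AlgEquiv.ofRingEquiv (f := RingEquiv.ofBijective (frobenius (OQ ⧸ Q) ℓ)
    (frobenius_bijective_quotient ℓ Q)) (by
    intro a
    obtain ⟨n, rfl⟩ := Ideal.Quotient.mk_surjective a
    rw [Ideal.Quotient.algebraMap_mk_of_liesOver]
    show (Ideal.Quotient.mk Q (algebraMap ℤ OQ n)) ^ ℓ = _
    rw [← map_pow, ← map_pow]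
    apply Ideal.Quotient.eq.mpr
    rw [← map_sub]
    have h1 : (n ^ ℓ - n : ℤ) ∈ primeIdeal ℓ := by
      rw [Ideal.mem_span_singleton]
      have : ((n ^ ℓ - n : ℤ) : ZMod ℓ) = 0 := by
        push_cast
        rw [ZMod.pow_card, sub_self]
      exact (ZMod.intCast_zmod_eq_zero_iff_dvd _ _).mp this
    rw [hQ.over] at h1
    exact h1)

theorem frobAlgEquiv_mk [hQmax : Q.IsMaximal] [hQ : Q.LiesOver (primeIdeal ℓ)] (x : OQ) :
    frobAlgEquiv ℓ Q (Ideal.Quotient.mk Q x) = Ideal.Quotient.mk Q (x ^ ℓ) := by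
  rw [map_pow]
  rfl

end Frob

end

/-- **Existence of Frobenius elements**: for every prime `ℓ` there are a valuation subring of
`AlgebraicClosure ℚ` above `ℓ` and an element of the absolute Galois group that is a Frobenius
element for it. -/
theorem exists_isFrobeniusAt (ℓ : ℕ) (hℓ : ℓ.Prime) :
    ∃ (A : ValuationSubring (AlgebraicClosure ℚ))
      (σ : AlgebraicClosure ℚ ≃ₐ[ℚ] AlgebraicClosure ℚ),
      A.LiesOverPrime ℓ ∧ A.IsFrobeniusAt σ ℓ := by
  haveI : Fact ℓ.Prime := ⟨hℓ⟩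
  obtain ⟨Q, hQmax, hQ⟩ := exists_prime_over ℓ
  haveI : Q.IsPrime := hQmax.isPrime
  haveI : Q.LiesOver (primeIdeal ℓ) := ⟨hQ.symm⟩
  set A : ValuationSubring (AlgebraicClosure ℚ) :=
    fracValuationSubring OQ Q OQ_integrallyClosed (exists_poly_coeff_notMem ℓ Q hQ) with hA
  have hmemA : ∀ x : AlgebraicClosure ℚ, x ∈ A ↔ ∃ s : OQ, s ∉ Q ∧ (s : AlgebraicClosure ℚ) * x ∈ OQ :=
    fun x => Iff.rfl
  obtain ⟨⟨σ, hσ⟩, hσF⟩ := Ideal.Quotient.stabilizerHom_surjective_of_profinite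
    (G := AlgebraicClosure ℚ ≃ₐ[ℚ] AlgebraicClosure ℚ) (primeIdeal ℓ) Q (frobAlgEquiv ℓ Q)
  have key : ∀ x : OQ, σ • x - x ^ ℓ ∈ Q := by
    intro x
    have h1 := DFunLike.congr_fun hσF (Ideal.Quotient.mk Q x)
    rw [frobAlgEquiv_mk, Ideal.Quotient.stabilizerHom_apply] at h1
    exact Ideal.Quotient.eq.mp h1
  -- elements of `Q` lie in the maximal ideal of `A`
  have hQm : ∀ q : OQ, q ∈ Q → ∀ hq : (q : AlgebraicClosure ℚ) ∈ A,
      (⟨q, hq⟩ : A) ∈ IsLocalRing.maximalIdeal A := by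
    intro q hq hqA
    have h1 := mem_nonunits_fracValuationSubring OQ Q OQ_integrallyClosed
      (exists_poly_coeff_notMem ℓ Q hQ) q hq
    obtain ⟨_, h2⟩ := ValuationSubring.mem_nonunits_iff_exists_mem_maximalIdeal.mp h1
    exact h2
  have hOA : ∀ x : OQ, (x : AlgebraicClosure ℚ) ∈ A := fun x => le_fracSubring OQ Q x.2
  refine ⟨A, σ, ?_, ?_⟩
  · -- `A` lies over `ℓ`
    have h1 := mem_nonunits_fracValuationSubring OQ Q OQ_integrallyClosed
      (exists_poly_coeff_notMem ℓ Q hQ) (ℓ : OQ) (natCast_mem_of_liesOver ℓ Q)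
    have h2 : ((ℓ : OQ) : AlgebraicClosure ℚ) = (ℓ : AlgebraicClosure ℚ) := by simp
    rw [h2] at h1
    exact h1
  · -- `σ` is a Frobenius element
    have hstab : ∀ τ : AlgebraicClosure ℚ ≃ₐ[ℚ] AlgebraicClosure ℚ, τ • Q = Q →
        ∀ x ∈ A, τ x ∈ A := by
      intro τ hτ x hx
      obtain ⟨s, hs, hsx⟩ := (hmemA x).mp hx
      refine (hmemA _).mpr ⟨τ • s, ?_, ?_⟩
      · intro h
        apply hs
        rw [← hτ] at h
        exact Ideal.smul_mem_pointwise_smul_iff.mp h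
      · have : ((τ • s : OQ) : AlgebraicClosure ℚ) * τ x = τ ((s : AlgebraicClosure ℚ) * x) := by
          rw [map_mul]; rfl
        rw [this]
        exact isInvariantSubring_OQ.smul_mem τ hsx
    have hσQ : σ • Q = Q := hσ
    have hσQ' : σ⁻¹ • Q = Q := by rw [inv_smul_eq_iff, hσQ]
    have hσA : σ ∈ A.decompositionSubgroup ℚ := by
      rw [MulAction.mem_stabilizer_iff]
      ext x
      rw [ValuationSubring.mem_pointwise_smul_iff_inv_smul_mem]
      constructor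
      · intro hx
        have := hstab σ hσQ _ hx
        simpa using this
      · intro hx
        exact hstab σ⁻¹ hσQ' x hx
    refine ⟨hσA, ?_⟩
    intro xbar
    obtain ⟨⟨x, hx⟩, rfl⟩ := IsLocalRing.residue_surjective xbar
    obtain ⟨s, hs, hsx⟩ := (hmemA x).mp hx
    -- invert `s` modulo `Q`
    obtain ⟨s', i, hi, hs'⟩ := hQmax.exists_inv hs
    -- the representative `t = (s x) s'`
    set t : OQ := ⟨(s : AlgebraicClosure ℚ) * x, hsx⟩ * s' with ht
    have hxt : IsLocalRing.residue A ⟨x, hx⟩ = IsLocalRing.residue A ⟨t, hOA t⟩ := by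
      rw [← sub_eq_zero, ← map_sub, IsLocalRing.residue_eq_zero_iff]
      have hdiff : (⟨x, hx⟩ - ⟨t, hOA t⟩ : A) = ⟨x, hx⟩ * ⟨i, hOA i⟩ := by
        apply Subtype.ext
        have h1 : (s' : AlgebraicClosure ℚ) * s + i = 1 := by
          have := congrArg (Subtype.val) hs'
          simpa using this
        show x - ((s : AlgebraicClosure ℚ) * x) * s' = x * i
        rw [← sub_eq_iff_eq_add'.mpr h1.symm]
        ring
      rw [hdiff]
      exact Ideal.mul_mem_left _ _ (hQm i hi _)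
    rw [hxt, ← IsLocalRing.ResidueField.residue_smul, ← map_pow, ← sub_eq_zero, ← map_sub,
      IsLocalRing.residue_eq_zero_iff]
    have hdiff : ((⟨σ, hσA⟩ : A.decompositionSubgroup ℚ) • (⟨t, hOA t⟩ : A) - ⟨t, hOA t⟩ ^ ℓ : A) =
        ⟨(σ • t - t ^ ℓ : OQ), hOA _⟩ := by
      apply Subtype.ext
      rfl
    rw [hdiff]
    exact hQm _ (key t) _

end Fermat.Agent.S54
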